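import Mathlib

/-!
# S43 / GMA / ResAlg : the ring level computations (Wiles' trick with complex conjugation)

`E` an `A`-algebra, `r : G →* E`, `t : G → A`, `d : G →* A` with the Cayley-Hamilton identity
`r g ^ 2 - t g • r g + d g = 0`; `c` an involution with `d c = -1`; `hf = 1/2`.
-/

set_option autoImplicit false

namespace Fermat.Agent.S43.GMA.Res

variable {A E G : Type*} [CommRing A] [Ring E] [Algebra A E] [Group G]

/-- Cayley-Hamilton. -/
def CH (r : G →* E) (t : G → A) (d : G →* A) : Prop :=
  ∀ g, r g * r g - t g • r g + d g • (1 : E) = 0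

/-- the idempotent `(1 + r c) / 2`. -/
def ep (hf : A) (r : G →* E) (c : G) : E := hf • (1 + r c)
/-- the idempotent `(1 - r c) / 2`. -/
def em (hf : A) (r : G →* E) (c : G) : E := hf • (1 - r c)
/-- the upper left entry. -/
def fa (hf : A) (t : G → A) (c : G) (g : G) : A := hf * (t g + t (c * g))
/-- the lower right entry. -/
def fd (hf : A) (t : G → A) (c : G) (g : G) : A := hf * (t g - t (c * g))
/-- `b(g) c(h)`. -/
def fx (hf : A) (t : G → A) (c : G) (g h : G) : A :=
  fa hf t c (g * h) - fa hf t c g * fa hf t c h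
/-- `c(h) b(g)`. -/
def fy (hf : A) (t : G → A) (c : G) (h g : G) : A :=
  fd hf t c (h * g) - fd hf t c h * fd hf t c g

theorem key_plus (P s X Y : E) (a b δ : A) (hPP : P * P = P) (hPs : P * s = P) (hsP : s * P = P)
    (h1 : X + δ • Y = a • (1 : E)) (h2 : s * X + (-δ) • (Y * s) = b • (1 : E)) :
    (a + b) • P = P * X * P + P * X * P := by
  have e1 : a • P = P * X * P + δ • (P * Y * P) := by
    have := congrArg (fun z => P * z * P) h1
    simp only [mul_add, add_mul, mul_smul_comm, smul_mul_assoc, mul_one, hPP] at this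
    exact this.symm
  have e2 : b • P = P * X * P - δ • (P * Y * P) := by
    have := congrArg (fun z => P * z * P) h2
    simp only [mul_add, add_mul, mul_smul_comm, smul_mul_assoc, mul_one, hPP, neg_smul, mul_neg,
      neg_mul] at this
    rw [← mul_assoc P s X, hPs, mul_assoc P (Y * s) P, mul_assoc Y s P, hsP, ← mul_assoc] at this
    rw [← this, sub_eq_add_neg]
  rw [add_smul, e1, e2]
  abel

theorem key_minus (P s X Y : E) (a b δ : A) (hPP : P * P = P) (hPs : P * s = -P) (hsP : s * P = -P)
    (h1 : X + δ • Y = a • (1 : E)) (h2 : s * X + (-δ) • (Y * s) = b • (1 : E)) :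
    (a - b) • P = P * X * P + P * X * P := by
  have e1 : a • P = P * X * P + δ • (P * Y * P) := by
    have := congrArg (fun z => P * z * P) h1
    simp only [mul_add, add_mul, mul_smul_comm, smul_mul_assoc, mul_one, hPP] at this
    exact this.symm
  have e2 : b • P = - (P * X * P) + δ • (P * Y * P) := by
    have := congrArg (fun z => P * z * P) h2
    simp only [mul_add, add_mul, mul_smul_comm, smul_mul_assoc, mul_one, hPP, neg_smul, mul_neg,
      neg_mul] at this
    rw [← mul_assoc P s X, hPs, mul_assoc P (Y * s) P, mul_assoc Y s P, hsP, mul_neg, mul_neg,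
      ← mul_assoc, smul_neg, neg_neg, neg_mul, neg_mul] at this
    rw [← this]
  rw [sub_smul, e1, e2]
  abel

variable {r : G →* E} {t : G → A} {d : G →* A} {c : G} {hf : A}

theorem tr_eq (h : CH r t d) (g : G) : r g + d g • r g⁻¹ = t g • (1 : E) := by
  have h1 := congrArg (· * r g⁻¹) (h g)
  simp only [sub_mul, add_mul, zero_mul, smul_mul_assoc, one_mul, mul_assoc, ← map_mul,
    mul_inv_cancel, map_one, mul_one] at h1
  rw [← sub_eq_zero, ← h1]
  abel

section idem

variable (hc : c * c = 1) (hhf : hf + hf = 1)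

include hc in
theorem rc_mul_rc : r c * r c = 1 := by rw [← map_mul, hc, map_one]

include hc in
theorem inv_c : c⁻¹ = c := inv_eq_of_mul_eq_one_left hc

include hhf in
theorem ep_add_em : ep hf r c + em hf r c = 1 := by
  rw [ep, em, ← smul_add, add_add_sub_cancel, smul_add, ← add_smul, hhf, one_smul]

include hc in
theorem rc_mul_ep : r c * ep hf r c = ep hf r c := by
  rw [ep, mul_smul_comm, mul_add, mul_one, rc_mul_rc hc, add_comm]

include hc in
theorem ep_mul_rc : ep hf r c * r c = ep hf r c := by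
  rw [ep, smul_mul_assoc, add_mul, one_mul, rc_mul_rc hc, add_comm]

include hc in
theorem rc_mul_em : r c * em hf r c = - em hf r c := by
  rw [em, mul_smul_comm, mul_sub, mul_one, rc_mul_rc hc, ← smul_neg, neg_sub]

include hc in
theorem em_mul_rc : em hf r c * r c = - em hf r c := by
  rw [em, smul_mul_assoc, sub_mul, one_mul, rc_mul_rc hc, ← smul_neg, neg_sub]

include hc hhf in
theorem ep_mul_ep : ep hf r c * ep hf r c = ep hf r c := by
  have e : ep hf r c * ep hf r c = hf • ((1 + r c) * ep hf r c) := by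
    rw [← smul_mul_assoc]; rfl
  rw [e, add_mul, one_mul, rc_mul_ep hc, smul_add, ← add_smul, hhf, one_smul]

include hc hhf in
theorem em_mul_em : em hf r c * em hf r c = em hf r c := by
  have e : em hf r c * em hf r c = hf • ((1 - r c) * em hf r c) := by
    rw [← smul_mul_assoc]; rfl
  rw [e, sub_mul, one_mul, rc_mul_em hc, sub_neg_eq_add, smul_add, ← add_smul, hhf, one_smul]

include hc in
theorem ep_mul_em : ep hf r c * em hf r c = 0 := by
  have e : ep hf r c * em hf r c = hf • ((1 + r c) * em hf r c) := by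
    rw [← smul_mul_assoc]; rfl
  rw [e, add_mul, one_mul, rc_mul_em hc, add_neg_cancel, smul_zero]

include hc in
theorem em_mul_ep : em hf r c * ep hf r c = 0 := by
  have e : em hf r c * ep hf r c = hf • ((1 - r c) * ep hf r c) := by
    rw [← smul_mul_assoc]; rfl
  rw [e, sub_mul, one_mul, rc_mul_ep hc, sub_self, smul_zero]

end idem

section main

variable (h : CH r t d) (hc : c * c = 1) (hdc : d c = -1) (hhf : hf + hf = 1)

include h hc hdc in
theorem tr_eq_c (g : G) : r c * r g + (-d g) • (r g⁻¹ * r c) = t (c * g) • (1 : E) := by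
  have := tr_eq h (c * g)
  rw [mul_inv_rev, inv_c hc, map_mul, map_mul, map_mul, hdc, neg_one_mul] at this
  exact this

include h hc hdc hhf in
/-- `e₊ r(g) e₊ = a(g) e₊`. -/
theorem ep_r_ep (g : G) : ep hf r c * r g * ep hf r c = fa hf t c g • ep hf r c := by
  have := key_plus (ep hf r c) (r c) (r g) (r g⁻¹) (t g) (t (c * g)) (d g) (ep_mul_ep hc hhf)
    (ep_mul_rc hc) (rc_mul_ep hc) (tr_eq h g) (tr_eq_c h hc hdc g)
  rw [fa, mul_smul, this, smul_add, ← add_smul, hhf, one_smul]

include h hc hdc hhf in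
/-- `e₋ r(g) e₋ = d(g) e₋`. -/
theorem em_r_em (g : G) : em hf r c * r g * em hf r c = fd hf t c g • em hf r c := by
  have := key_minus (em hf r c) (r c) (r g) (r g⁻¹) (t g) (t (c * g)) (d g) (em_mul_em hc hhf)
    (em_mul_rc hc) (rc_mul_em hc) (tr_eq h g) (tr_eq_c h hc hdc g)
  rw [fd, mul_smul, this, smul_add, ← add_smul, hhf, one_smul]

include h hc hdc hhf in
/-- `e₊ r(g) e₋ r(h) e₊ = x(g,h) e₊`. -/
theorem ep_r_em_r_ep (g g' : G) :
    ep hf r c * r g * em hf r c * r g' * ep hf r c = fx hf t c g g' • ep hf r c := by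
  have e1 : em hf r c = 1 - ep hf r c := by rw [← ep_add_em (r := r) (c := c) hhf]; abel
  have e2 : ep hf r c * r g * ep hf r c * r g' * ep hf r c =
      (ep hf r c * r g * ep hf r c) * (ep hf r c * r g' * ep hf r c) := by
    simp only [mul_assoc]
    rw [← mul_assoc (ep hf r c) (ep hf r c), ep_mul_ep hc hhf]
  rw [e1, mul_sub, mul_one, sub_mul, sub_mul, mul_assoc (ep hf r c) (r g) (r g'), ← map_mul,
    ep_r_ep h hc hdc hhf, e2, ep_r_ep h hc hdc hhf, ep_r_ep h hc hdc hhf, smul_mul_smul_comm,
    ep_mul_ep hc hhf, ← sub_smul, fx]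

include h hc hdc hhf in
/-- `e₋ r(h) e₊ r(g) e₋ = y(h,g) e₋`. -/
theorem em_r_ep_r_em (g g' : G) :
    em hf r c * r g * ep hf r c * r g' * em hf r c = fy hf t c g g' • em hf r c := by
  have e1 : ep hf r c = 1 - em hf r c := by rw [← ep_add_em (r := r) (c := c) hhf]; abel
  have e2 : em hf r c * r g * em hf r c * r g' * em hf r c =
      (em hf r c * r g * em hf r c) * (em hf r c * r g' * em hf r c) := by
    simp only [mul_assoc]
    rw [← mul_assoc (em hf r c) (em hf r c), em_mul_em hc hhf]
  rw [e1, mul_sub, mul_one, sub_mul, sub_mul, mul_assoc (em hf r c) (r g) (r g'), ← map_mul,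
    em_r_em h hc hdc hhf, e2, em_r_em h hc hdc hhf, em_r_em h hc hdc hhf, smul_mul_smul_comm,
    em_mul_em hc hhf, ← sub_smul, fy]

end main

end Fermat.Agent.S43.GMA.Res
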