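import Fermat.Agent.S43.Exact.GMA
import Fermat.Agent.S43.GMA.ResAlg

/-!
# S43 / GMA / Res : the GMA theorem with a prescribed residual representation

`A` a `k`-algebra with an augmentation `res : A →ₐ[k] k` detecting units, `W` a faithful `A`-module with
an `A`-linear action `r` of `G` satisfying `r g + ε g • r g⁻¹ = t g`; `rb : G →* GL₂(k)` irreducible
with trace `res ∘ t` and determinant `res ∘ ε`.  Then `W ≃ L²` with `G` acting through
`ρ : G →* GL₂(A)`, and `ρ` reduces to `rb` EXACTLY.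
-/

set_option autoImplicit false

open Matrix

namespace Fermat.Agent.S43.GMA.Res

open Fermat.Agent.S43.Exact

section Residual

variable {k G : Type*} [Field k] [Group G]

/-- the matrix valued homomorphism. -/
def matHom (rb : G →* GL (Fin 2) k) : G →* Matrix (Fin 2) (Fin 2) k :=
  (Units.coeHom _).comp rb

/-- the determinant, as a homomorphism to `k`. -/
def detHom (rb : G →* GL (Fin 2) k) : G →* k :=
  (Matrix.detMonoidHom).comp (matHom rb)

theorem matHom_apply (rb : G →* GL (Fin 2) k) (g : G) : matHom rb g = (rb g).1 := rfl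

theorem detHom_apply (rb : G →* GL (Fin 2) k) (g : G) : detHom rb g = (rb g).1.det := rfl

theorem ch_fin_two (M : Matrix (Fin 2) (Fin 2) k) : M * M - M.trace • M + M.det • 1 = 0 := by
  ext i j
  fin_cases i <;> fin_cases j <;>
    simp [Matrix.mul_apply, Fin.sum_univ_two, Matrix.trace_fin_two, Matrix.det_fin_two] <;> ring

theorem CH_matHom (rb : G →* GL (Fin 2) k) :
    CH (matHom rb) (fun g => (rb g).1.trace) (detHom rb) := fun _ => ch_fin_two _

variable (rb : G →* GL (Fin 2) k)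
  (hirr : ∀ U : Submodule k (Fin 2 → k), (∀ g, ∀ u ∈ U, (rb g).1 *ᵥ u ∈ U) → U = ⊥ ∨ U = ⊤)

include hirr in
theorem exists_orbit (F : Matrix (Fin 2) (Fin 2) k) (hF : F ≠ 0) (v : Fin 2 → k) (hv : v ≠ 0) :
    ∃ g, F *ᵥ ((rb g).1 *ᵥ v) ≠ 0 := by
  by_contra hcon
  push Not at hcon
  let U : Submodule k (Fin 2 → k) :=
    { carrier := {w | ∀ g, F *ᵥ ((rb g).1 *ᵥ w) = 0}
      zero_mem' := fun g => by simp
      add_mem' := fun {a b} ha hb g => by
        rw [Matrix.mulVec_add, Matrix.mulVec_add, ha g, hb g, add_zero]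
      smul_mem' := fun a w hw g => by
        rw [Matrix.mulVec_smul, Matrix.mulVec_smul, hw g, smul_zero] }
  have hU : ∀ g, ∀ u ∈ U, (rb g).1 *ᵥ u ∈ U := by
    intro g u hu g'
    have := hu (g' * g)
    rwa [map_mul, Units.val_mul, ← Matrix.mulVec_mulVec] at this
  rcases hirr U hU with h | h
  · have : v ∈ U := hcon
    rw [h, Submodule.mem_bot] at this
    exact hv this
  · apply hF
    have h1 : ∀ w, F *ᵥ w = 0 := by
      intro w
      have : w ∈ U := by rw [h]; trivial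
      simpa using this 1
    ext i j
    have := congrFun (h1 (Pi.single j 1)) i
    simpa using this

variable {c : G} (h2 : (2 : k) ≠ 0) (hc : c * c = 1) (hdc : (rb c).1.det = -1)

include h2 in
theorem half_add_half : (2 : k)⁻¹ + (2 : k)⁻¹ = 1 := by
  rw [← two_mul, mul_inv_cancel₀ h2]

include h2 hc hdc in
theorem ep_ne_zero : ep (2 : k)⁻¹ (matHom rb) c ≠ 0 := by
  intro h
  have h1 := ep_add_em (r := matHom rb) (c := c) (half_add_half h2)
  rw [h, zero_add] at h1
  have h3 := rc_mul_em (r := matHom rb) (hf := (2 : k)⁻¹) hc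
  rw [h1, mul_one, matHom_apply] at h3
  rw [h3] at hdc
  simp only [Matrix.det_neg, Fintype.card_fin, even_two, Even.neg_pow, one_pow, Matrix.det_one,
    one_mul] at hdc
  apply h2
  linear_combination hdc

include h2 hc hdc in
theorem em_ne_zero : em (2 : k)⁻¹ (matHom rb) c ≠ 0 := by
  intro h
  have h1 := ep_add_em (r := matHom rb) (c := c) (half_add_half h2)
  rw [h, add_zero] at h1
  have h3 := rc_mul_ep (r := matHom rb) (hf := (2 : k)⁻¹) hc
  rw [h1, mul_one, matHom_apply] at h3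
  rw [h3] at hdc
  simp only [Matrix.det_one] at hdc
  apply h2
  linear_combination hdc

include hirr h2 hc hdc in
/-- irreducibility gives the two units. -/
theorem exists_units : ∃ g0 h0 : G,
    fx (2 : k)⁻¹ (fun g => (rb g).1.trace) c g0 h0 ≠ 0 ∧
    fy (2 : k)⁻¹ (fun g => (rb g).1.trace) c h0 g0 ≠ 0 := by
  set P := ep (2 : k)⁻¹ (matHom rb) c with hP
  set M := em (2 : k)⁻¹ (matHom rb) c with hM
  have hhf := half_add_half h2
  have hCH := CH_matHom rb
  have hdc' : detHom rb c = -1 := hdc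
  have hP0 : P ≠ 0 := ep_ne_zero rb h2 hc hdc
  have hM0 : M ≠ 0 := em_ne_zero rb h2 hc hdc
  obtain ⟨v0, hv0⟩ : ∃ v0, P *ᵥ v0 ≠ 0 := by
    by_contra hcon
    push Not at hcon
    apply hP0
    ext i j
    have := congrFun (hcon (Pi.single j 1)) i
    simpa using this
  obtain ⟨h0, hh0⟩ := exists_orbit rb hirr M hM0 _ hv0
  obtain ⟨g0, hg0⟩ := exists_orbit rb hirr P hP0 _ hh0
  have e1 := ep_r_em_r_ep (hf := (2 : k)⁻¹) hCH hc hdc' hhf g0 h0
  have e2 := em_r_ep_r_em (hf := (2 : k)⁻¹) hCH hc hdc' hhf h0 g0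
  rw [← hP, ← hM] at e1 e2
  have hx : fx (2 : k)⁻¹ (fun g => (rb g).1.trace) c g0 h0 ≠ 0 := by
    intro hx
    apply hg0
    rw [hx, zero_smul] at e1
    have := congrArg (· *ᵥ v0) e1
    simp only [Matrix.zero_mulVec, ← Matrix.mulVec_mulVec] at this
    exact this
  refine ⟨g0, h0, hx, ?_⟩
  intro hy
  rw [hy, zero_smul] at e2
  -- `(B C) (B C) = B (C B) C`
  have hPP : P * P = P := ep_mul_ep hc hhf
  have e3 : (P * matHom rb g0 * M * matHom rb h0 * P) * (P * matHom rb g0 * M * matHom rb h0 * P) =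
      P * matHom rb g0 * (M * matHom rb h0 * P * matHom rb g0 * M) * matHom rb h0 * P := by
    simp only [mul_assoc]
    rw [← mul_assoc P P, hPP]
  rw [e2, e1, mul_zero, zero_mul, zero_mul, smul_mul_smul_comm, hPP] at e3
  rcases smul_eq_zero.1 e3 with h | h
  · exact hx (mul_self_eq_zero.1 h)
  · exact hP0 h

end Residual

section Conj

variable {k G : Type*} [Field k] [Group G]

/-- the linear action on `k²`. -/
def linHom (rb : G →* GL (Fin 2) k) : G →* Module.End k (Fin 2 → k) :=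
  (Matrix.toLinAlgEquiv' : Matrix (Fin 2) (Fin 2) k ≃ₐ[k] _).toAlgHom.toMonoidHom.comp (matHom rb)

theorem linHom_apply (rb : G →* GL (Fin 2) k) (g : G) (v : Fin 2 → k) :
    linHom rb g v = (rb g).1 *ᵥ v := rfl

theorem matAct_eq_mulVec {R : Type*} [CommRing R] (X : Matrix (Fin 2) (Fin 2) R) (v : Fin 2 → R) :
    matAct X v = X *ᵥ v := by
  funext i
  simp [matAct_apply, Matrix.mulVec, dotProduct, Fin.sum_univ_two]

theorem linHom_scal (rb : G →* GL (Fin 2) k) (g : G) :
    linHom rb g + ((Matrix.GeneralLinearGroup.det.comp rb g : kˣ) : k) • linHom rb g⁻¹ =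
      (rb g).1.trace • (1 : Module.End k (Fin 2 → k)) := by
  have h := tr_eq (CH_matHom rb) g
  have h1 := congrArg (Matrix.toLinAlgEquiv' : Matrix (Fin 2) (Fin 2) k ≃ₐ[k] _) h
  rw [map_add, map_smul, map_smul, map_one] at h1
  exact h1

theorem exists_conj (rb : G →* GL (Fin 2) k) {ε : G →* kˣ} {c : G} {t : G → k} {h : k} {g0 h0 : G}
    {ui ui' : k} (H : GHyp (linHom rb) ε c t h g0 h0 ui ui') :
    ∃ Pm Pm' : Matrix (Fin 2) (Fin 2) k, Pm * Pm' = 1 ∧ Pm' * Pm = 1 ∧
      ∀ g, Pm * (rb g).1 = rhoMat t c h g0 h0 ui g * Pm := by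
  have hfin : Module.finrank k (LL (linHom rb) c h) = 1 := by
    have e := H.Phi.finrank_eq
    rw [Module.finrank_fin_fun, Module.finrank_pi_fintype] at e
    simp only [Finset.sum_const, Finset.card_univ, Fintype.card_fin, smul_eq_mul] at e
    omega
  let lam : LL (linHom rb) c h ≃ₗ[k] k :=
    LinearEquiv.ofFinrankEq _ _ (by rw [hfin, Module.finrank_self])
  let Ψ : (Fin 2 → k) ≃ₗ[k] (Fin 2 → k) := H.Phi.trans (LinearEquiv.piCongrRight fun _ => lam)
  have hΨ : ∀ g w, Ψ ((rb g).1 *ᵥ w) = rhoMat t c h g0 h0 ui g *ᵥ Ψ w := by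
    intro g w
    have e1 := H.Phi_act g w
    have e2 := matAct_map lam.toLinearMap (rhoMat t c h g0 h0 ui g) (H.Phi w)
    rw [← matAct_eq_mulVec]
    change (fun i => lam (H.Phi (linHom rb g w) i)) =
      matAct (rhoMat t c h g0 h0 ui g) (fun i => lam (H.Phi w i))
    rw [e1]
    exact e2.symm
  refine ⟨LinearMap.toMatrix' Ψ.toLinearMap, LinearMap.toMatrix' Ψ.symm.toLinearMap, ?_, ?_, ?_⟩
  · rw [← LinearMap.toMatrix'_comp, Ψ.comp_symm, LinearMap.toMatrix'_id]
  · rw [← LinearMap.toMatrix'_comp, Ψ.symm_comp, LinearMap.toMatrix'_id]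
  · intro g
    apply Matrix.toLin'.injective
    apply LinearMap.ext
    intro w
    rw [Matrix.toLin'_apply, Matrix.toLin'_apply, ← Matrix.mulVec_mulVec, ← Matrix.mulVec_mulVec,
      LinearMap.toMatrix'_mulVec, LinearMap.toMatrix'_mulVec]
    exact hΨ g w

end Conj

section Main

variable {k A G W : Type*} [Field k] [CommRing A] [Algebra k A] [Group G] [AddCommGroup W]
  [Module A W]

omit [Algebra k A] in
theorem rhoMat_map (res : A →+* k) (t : G → A) (c : G) (h : A) (g0 h0 : G) (ui : A) (g : G) :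
    (rhoMat t c h g0 h0 ui g).map res =
      rhoMat (fun g => res (t g)) c (res h) g0 h0 (res ui) g := by
  ext i j
  fin_cases i <;> fin_cases j <;> simp [rhoMat, aa, dd, xx]

/-- the automorphism of `L²` attached to an invertible matrix. -/
def matEquiv {L : Type*} [AddCommGroup L] [Module A L] (P P' : Matrix (Fin 2) (Fin 2) A)
    (h : P * P' = 1) (h' : P' * P = 1) : (Fin 2 → L) ≃ₗ[A] (Fin 2 → L) :=
  LinearEquiv.ofLinearMap (matAct P) (matAct P')
    (LinearMap.ext fun v => by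
      rw [LinearMap.comp_apply, ← matAct_mul, h, matAct_one, LinearMap.id_apply])
    (LinearMap.ext fun v => by
      rw [LinearMap.comp_apply, ← matAct_mul, h', matAct_one, LinearMap.id_apply])

theorem matEquiv_apply {L : Type*} [AddCommGroup L] [Module A L] (P P' : Matrix (Fin 2) (Fin 2) A)
    (h : P * P' = 1) (h' : P' * P = 1) (v : Fin 2 → L) : matEquiv P P' h h' v = matAct P v := rfl

/-- **GMA with a prescribed residual representation.** -/
theorem gma_res (h2 : (2 : k) ≠ 0) (res : A →ₐ[k] k) (hloc : ∀ a : A, res a ≠ 0 → IsUnit a)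
    (hW : ∀ a : A, (∀ w : W, a • w = 0) → a = 0)
    (r : G →* Module.End A W) (ε : G →* Aˣ) (c : G) (t : G → A)
    (hc : c * c = 1) (hεc : ε c = -1)
    (ht : ∀ g, r g + (ε g : A) • r g⁻¹ = t g • (1 : Module.End A W))
    (rb : G →* GL (Fin 2) k)
    (htr : ∀ g, (rb g).1.trace = res (t g)) (hdet : ∀ g, (rb g).1.det = res (ε g))
    (hirr : ∀ U : Submodule k (Fin 2 → k), (∀ g, ∀ u ∈ U, (rb g).1 *ᵥ u ∈ U) → U = ⊥ ∨ U = ⊤) :
    ∃ (ρ : G →* GL (Fin 2) A) (L : Submodule A W) (Φ : W ≃ₗ[A] (Fin 2 → L)),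
      (∀ g w, Φ (r g w) = matAct (ρ g).1 (Φ w)) ∧
      (∀ g, (ρ g).1.map res = (rb g).1) ∧
      (∀ g, (ρ g).1.trace = t g) ∧ (∀ g, (ρ g).1.det = ε g) ∧
      (∀ a : A, (∀ l : L, a • l = 0) → a = 0) ∧
      (∀ g g', r g = r g' → ρ g = ρ g') := by
  have hdc : (rb c).1.det = -1 := by rw [hdet, hεc]; simp
  obtain ⟨g0, h0, hx, hy⟩ := exists_units rb hirr h2 hc hdc
  set h : A := algebraMap k A (2 : k)⁻¹ with hh
  have hresh : res h = (2 : k)⁻¹ := by rw [hh, AlgHom.commutes]; rfl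
  have h2' : 2 * h = 1 := by
    rw [hh, ← map_ofNat (algebraMap k A) 2, ← map_mul, mul_inv_cancel₀ h2, map_one]
  have hfun : (fun g => (rb g).1.trace) = fun g => res (t g) := funext htr
  have ex : res (xx t c h g0 h0) = fx (2 : k)⁻¹ (fun g => (rb g).1.trace) c g0 h0 := by
    rw [hfun]
    simp only [xx, aa, fx, fa, map_sub, map_mul, map_add, hresh]
  have ey : res (xx' t c h h0 g0) = fy (2 : k)⁻¹ (fun g => (rb g).1.trace) c h0 g0 := by
    rw [hfun]
    simp only [xx', dd, fy, fd, map_sub, map_mul, hresh]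
  obtain ⟨u, hu⟩ := hloc _ (by rw [ex]; exact hx)
  obtain ⟨u', hu'⟩ := hloc _ (by rw [ey]; exact hy)
  have H : GHyp r ε c t h g0 h0 (↑u⁻¹ : A) (↑u'⁻¹ : A) :=
    ⟨hc, hεc, ht, h2', by rw [← hu, Units.mul_inv], by rw [← hu', Units.mul_inv]⟩
  have Hb : GHyp (linHom rb) (Matrix.GeneralLinearGroup.det.comp rb) c (fun g => (rb g).1.trace)
      (2 : k)⁻¹ g0 h0 (res (↑u⁻¹ : A)) (res (↑u'⁻¹ : A)) := by
    refine ⟨hc, Units.ext hdc, linHom_scal rb, mul_inv_cancel₀ h2, ?_, ?_⟩
    · have := congrArg res H.hu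
      rw [map_mul, map_one, ex] at this
      exact this
    · have := congrArg res H.hu'
      rw [map_mul, map_one, ey] at this
      exact this
  obtain ⟨Pm, Pm', hP1, hP2, hconj⟩ := exists_conj rb Hb
  set PA : Matrix (Fin 2) (Fin 2) A := Pm.map (algebraMap k A) with hPA
  set PA' : Matrix (Fin 2) (Fin 2) A := Pm'.map (algebraMap k A) with hPA'
  have hA1 : PA * PA' = 1 := by
    rw [hPA, hPA', ← Matrix.map_mul, hP1, Matrix.map_one _ (map_zero _) (map_one _)]
  have hA2 : PA' * PA = 1 := by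
    rw [hPA, hPA', ← Matrix.map_mul, hP2, Matrix.map_one _ (map_zero _) (map_one _)]
  have hresP : PA.map res = Pm := by
    rw [hPA, Matrix.map_map]
    ext i j
    simp
  have hresP' : PA'.map res = Pm' := by
    rw [hPA', Matrix.map_map]
    ext i j
    simp
  let ρ1 : G →* Matrix (Fin 2) (Fin 2) A :=
    { toFun := fun g => PA' * H.rho hW g * PA
      map_one' := by rw [map_one, mul_one, hA2]
      map_mul' := fun g g' => by
        rw [map_mul]
        calc PA' * (H.rho hW g * H.rho hW g') * PA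
            = PA' * H.rho hW g * 1 * H.rho hW g' * PA := by simp only [mul_one, mul_assoc]
          _ = PA' * H.rho hW g * PA * (PA' * H.rho hW g' * PA) := by
              rw [← hA1]; simp only [mul_assoc] }
  have hρ1 : ∀ g, ((ρ1.toHomUnits g : (Matrix (Fin 2) (Fin 2) A)ˣ) : Matrix (Fin 2) (Fin 2) A) =
      PA' * H.rho hW g * PA := fun g => rfl
  refine ⟨ρ1.toHomUnits, LL r c h, H.Phi.trans (matEquiv PA' PA hA2 hA1), ?_, ?_, ?_, ?_,
    H.faithful_LL hW, ?_⟩
  · intro g w
    rw [LinearEquiv.trans_apply, LinearEquiv.trans_apply, matEquiv_apply, matEquiv_apply, hρ1,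
      H.Phi_rho hW, ← matAct_mul, ← matAct_mul, mul_assoc (PA' * _), hA1, mul_one]
  · intro g
    rw [hρ1, Matrix.map_mul, Matrix.map_mul, hresP, hresP', H.rho_apply]
    have e := rhoMat_map (res : A →+* k) t c h g0 h0 (↑u⁻¹ : A) g
    have e' : (rhoMat t c h g0 h0 (↑u⁻¹ : A) g).map res =
        rhoMat (fun g => (rb g).1.trace) c (2 : k)⁻¹ g0 h0 (res (↑u⁻¹ : A)) g := by
      rw [hfun, ← hresh]
      exact e
    rw [e', mul_assoc, ← hconj, ← mul_assoc, hP2, one_mul]
  · intro g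
    rw [hρ1, Matrix.trace_mul_comm, ← mul_assoc, hA1, one_mul, H.trace_rho]
  · intro g
    rw [hρ1, Matrix.det_mul, Matrix.det_mul, mul_right_comm, ← Matrix.det_mul, hA2, Matrix.det_one,
      one_mul, H.det_rho]
  · intro g g' hg
    apply Units.ext
    rw [hρ1, hρ1, H.rho_eq_of hW hg]

end Main

end Fermat.Agent.S43.GMA.Res
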