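import Mathlib

/-!
# S43 / GMA : the trace algebra

`k` a field, `V` a `k`-vector space with a linear action `r` of a group `G`, `χ : G →* kˣ`.
Put `t(g) = r g + χ(g) r g⁻¹` and assume (H1) `t(g)` commutes with every `r h`
(Eichler-Shimura + Chebotarev).  Then

* `TrAlg H` : the `k`-subalgebra of `End_k V` generated by the `t(g)`, as a commutative ring;
* `V` is a faithful `TrAlg H`-module, `rA H : G →* End_{TrAlg H} V`, `tA H g`, `epsA H`, and
  `rA g + ε g • rA g⁻¹ = tA g • 1` (the hypothesis `ht` of `Exact.GHyp`);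
* under (H2) `t(g) - τ(g)` nilpotent for every `g` and `V ≠ 0`: a `k`-algebra map
  `res : TrAlg H →ₐ[k] k` with `res (tA g) = τ g`, `a - res a` nilpotent for all `a`;
  `TrAlg H` is local, its maximal ideal is `ker res` and it is nilpotent (if `V` is f.d.).
-/

set_option autoImplicit false

namespace Fermat.Agent.S43.GMA

open Module

variable {k : Type*} [Field k] {V : Type*} [AddCommGroup V] [Module k V] {G : Type*} [Group G]

/-- `t(g) = r g + χ(g) r g⁻¹`. -/
def tOp (r : G →* Module.End k V) (χ : G →* kˣ) (g : G) : Module.End k V :=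
  r g + (χ g : k) • r g⁻¹

/-- (H1): the operators `t(g)` commute with the action of `G`. -/
def Central (r : G →* Module.End k V) (χ : G →* kˣ) : Prop :=
  ∀ g h, tOp r χ g * r h = r h * tOp r χ g

variable {r : G →* Module.End k V} {χ : G →* kˣ}

theorem Central.tOp_comm (H : Central r χ) (g h : G) :
    tOp r χ g * tOp r χ h = tOp r χ h * tOp r χ g := by
  conv_lhs => rw [tOp.eq_def r χ h]
  conv_rhs => rw [tOp.eq_def r χ h]
  rw [mul_add, add_mul, mul_smul_comm, smul_mul_assoc, H g h, H g h⁻¹]

/-- the trace algebra, as a subalgebra of `End_k V`. -/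
def trSub (r : G →* Module.End k V) (χ : G →* kˣ) : Subalgebra k (Module.End k V) :=
  Algebra.adjoin k (Set.range (tOp r χ))

/-- the trace algebra, as a type. -/
def TrAlg (_H : Central r χ) : Type _ := ↥(trSub r χ)

noncomputable instance (H : Central r χ) : CommRing (TrAlg H) :=
  { Subalgebra.toRing (trSub r χ) with
    mul_comm := (Algebra.isMulCommutative_adjoin k (s := Set.range (tOp r χ)) (by
      rintro _ ⟨g, rfl⟩ _ ⟨h, rfl⟩
      exact H.tOp_comm g h)).is_comm.comm }

noncomputable instance (H : Central r χ) : Algebra k (TrAlg H) :=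
  inferInstanceAs (Algebra k ↥(trSub r χ))

noncomputable instance (H : Central r χ) : Module (TrAlg H) V :=
  inferInstanceAs (Module ↥(trSub r χ) V)

instance (H : Central r χ) : IsScalarTower k (TrAlg H) V :=
  inferInstanceAs (IsScalarTower k ↥(trSub r χ) V)

/-- the underlying endomorphism. -/
def TrAlg.toEnd (H : Central r χ) : TrAlg H →ₐ[k] Module.End k V := (trSub r χ).val

theorem TrAlg.smul_def (H : Central r χ) (a : TrAlg H) (v : V) : a • v = TrAlg.toEnd H a v := rfl

theorem TrAlg.toEnd_injective (H : Central r χ) : Function.Injective (TrAlg.toEnd H) :=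
  Subtype.val_injective

/-- `V` is a faithful module. -/
theorem TrAlg.faithful (H : Central r χ) (a : TrAlg H) (h : ∀ v : V, a • v = 0) : a = 0 := by
  apply TrAlg.toEnd_injective H
  rw [map_zero]
  ext v
  exact h v

instance (H : Central r χ) [FiniteDimensional k V] : Module.Finite k (TrAlg H) :=
  inferInstanceAs (Module.Finite k ↥(trSub r χ))

theorem isNoetherianRing (H : Central r χ) [FiniteDimensional k V] : IsNoetherianRing (TrAlg H) :=
  IsNoetherianRing.of_finite k (TrAlg H)

theorem isArtinianRing (H : Central r χ) [FiniteDimensional k V] : IsArtinianRing (TrAlg H) :=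
  IsArtinianRing.of_finite k (TrAlg H)

/-- every element of the trace algebra commutes with the action of `G`. -/
theorem TrAlg.toEnd_comm (H : Central r χ) (a : TrAlg H) (h : G) :
    TrAlg.toEnd H a * r h = r h * TrAlg.toEnd H a := by
  obtain ⟨a, ha⟩ := a
  show a * r h = r h * a
  induction ha using Algebra.adjoin_induction with
  | mem x hx =>
    obtain ⟨g, rfl⟩ := hx
    exact H g h
  | algebraMap c => exact Algebra.commutes c (r h)
  | add x y _ _ hx hy => rw [add_mul, mul_add, hx, hy]
  | mul x y _ _ hx hy => rw [mul_assoc, hy, ← mul_assoc, hx, mul_assoc]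

/-- the action of `G`, as `TrAlg H`-linear maps. -/
def rA (H : Central r χ) : G →* Module.End (TrAlg H) V where
  toFun g :=
    { toFun := r g
      map_add' := map_add _
      map_smul' := fun a v => by
        have := LinearMap.congr_fun (TrAlg.toEnd_comm H a g) v
        exact this.symm }
  map_one' := by
    ext v
    show r 1 v = v
    rw [map_one]; rfl
  map_mul' g h := by
    ext v
    show r (g * h) v = r g (r h v)
    rw [map_mul]; rfl

@[simp] theorem rA_apply (H : Central r χ) (g : G) (v : V) : rA H g v = r g v := rfl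

/-- `t(g)` as an element of the trace algebra. -/
def tA (H : Central r χ) (g : G) : TrAlg H := ⟨tOp r χ g, Algebra.subset_adjoin ⟨g, rfl⟩⟩

@[simp] theorem toEnd_tA (H : Central r χ) (g : G) : TrAlg.toEnd H (tA H g) = tOp r χ g := rfl

/-- `χ` with values in the units of the trace algebra. -/
noncomputable def epsA (H : Central r χ) : G →* (TrAlg H)ˣ :=
  (Units.map (algebraMap k (TrAlg H) : k →* TrAlg H)).comp χ

@[simp] theorem coe_epsA (H : Central r χ) (g : G) :
    ((epsA H g : (TrAlg H)ˣ) : TrAlg H) = algebraMap k (TrAlg H) (χ g) := rfl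

/-- the hypothesis `ht` of `Exact.GHyp`. -/
theorem rA_add (H : Central r χ) (g : G) :
    rA H g + ((epsA H g : (TrAlg H)ˣ) : TrAlg H) • rA H g⁻¹
      = tA H g • (1 : Module.End (TrAlg H) V) := by
  ext v
  show r g v + (algebraMap k (TrAlg H) (χ g)) • r g⁻¹ v = tOp r χ g v
  rw [algebraMap_smul]
  rfl

/-- the trace algebra is generated by the `t(g)`. -/
theorem adjoin_tA (H : Central r χ) : Algebra.adjoin k (Set.range (tA H)) = ⊤ := by
  have h := Algebra.adjoin_adjoin_coe_preimage (R := k) (s := Set.range (tOp r χ))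
  have e : ((↑) ⁻¹' (Set.range (tOp r χ)) : Set ↥(Algebra.adjoin k (Set.range (tOp r χ))))
      = Set.range (tA H) := by
    ext x
    constructor
    · rintro ⟨g, hg⟩
      exact ⟨g, Subtype.ext hg⟩
    · rintro ⟨g, rfl⟩
      exact ⟨g, rfl⟩
  rw [e] at h
  exact h

/-! ### The residue map -/

/-- (H2): `t(g) - τ(g)` is nilpotent for every `g`. -/
def NilAt (r : G →* Module.End k V) (χ : G →* kˣ) (τ : G → k) : Prop :=
  ∀ g, IsNilpotent (tOp r χ g - algebraMap k (Module.End k V) (τ g))

variable {τ : G → k}

theorem tA_sub_mem_nilradical (H : Central r χ) (h2 : NilAt r χ τ) (g : G) :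
    tA H g - algebraMap k (TrAlg H) (τ g) ∈ nilradical (TrAlg H) := by
  obtain ⟨n, hn⟩ := h2 g
  refine mem_nilradical.2 ⟨n, TrAlg.toEnd_injective H ?_⟩
  rw [map_pow, map_sub, map_zero, toEnd_tA, AlgHom.commutes]
  exact hn

/-- the subalgebra `k + nilradical`. -/
def scalSub (H : Central r χ) : Subalgebra k (TrAlg H) where
  carrier := {a | ∃ c : k, a - algebraMap k (TrAlg H) c ∈ nilradical (TrAlg H)}
  mul_mem' := by
    rintro a b ⟨c, hc⟩ ⟨d, hd⟩
    refine ⟨c * d, ?_⟩
    have e : a * b - algebraMap k (TrAlg H) (c * d)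
        = (a - algebraMap k (TrAlg H) c) * b
          + algebraMap k (TrAlg H) c * (b - algebraMap k (TrAlg H) d) := by
      rw [map_mul]; ring
    rw [e]
    exact Ideal.add_mem _ (Ideal.mul_mem_right _ _ hc) (Ideal.mul_mem_left _ _ hd)
  add_mem' := by
    rintro a b ⟨c, hc⟩ ⟨d, hd⟩
    refine ⟨c + d, ?_⟩
    have e : a + b - algebraMap k (TrAlg H) (c + d)
        = (a - algebraMap k (TrAlg H) c) + (b - algebraMap k (TrAlg H) d) := by
      rw [map_add]; ring
    rw [e]
    exact Ideal.add_mem _ hc hd
  algebraMap_mem' c := ⟨c, by rw [sub_self]; exact Ideal.zero_mem _⟩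

theorem exists_scal (H : Central r χ) (h2 : NilAt r χ τ) (a : TrAlg H) :
    ∃ c : k, a - algebraMap k (TrAlg H) c ∈ nilradical (TrAlg H) := by
  have h : Algebra.adjoin k (Set.range (tA H)) ≤ scalSub H := by
    apply Algebra.adjoin_le
    rintro _ ⟨g, rfl⟩
    exact ⟨τ g, tA_sub_mem_nilradical H h2 g⟩
  rw [adjoin_tA] at h
  exact h (Algebra.mem_top (x := a))

instance (H : Central r χ) [Nontrivial V] : Nontrivial (TrAlg H) := by
  obtain ⟨v, hv⟩ := exists_ne (0 : V)
  refine ⟨⟨1, 0, fun h => hv ?_⟩⟩
  rw [← one_smul (TrAlg H) v, h, zero_smul]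

theorem scal_unique (H : Central r χ) [Nontrivial V] {a : TrAlg H} {c d : k}
    (hc : a - algebraMap k (TrAlg H) c ∈ nilradical (TrAlg H))
    (hd : a - algebraMap k (TrAlg H) d ∈ nilradical (TrAlg H)) : c = d := by
  have h : algebraMap k (TrAlg H) (c - d) ∈ nilradical (TrAlg H) := by
    have e : algebraMap k (TrAlg H) (c - d)
        = (a - algebraMap k (TrAlg H) d) - (a - algebraMap k (TrAlg H) c) := by
      rw [map_sub]; ring
    rw [e]
    exact Ideal.sub_mem _ hd hc
  obtain ⟨n, hn⟩ := mem_nilradical.1 h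
  rw [← map_pow, map_eq_zero_iff _ (algebraMap k (TrAlg H)).injective] at hn
  exact sub_eq_zero.1 (eq_zero_of_pow_eq_zero hn)

/-- the residue map, as a function. -/
noncomputable def resFun (H : Central r χ) (h2 : NilAt r χ τ) (a : TrAlg H) : k :=
  (exists_scal H h2 a).choose

theorem resFun_spec (H : Central r χ) (h2 : NilAt r χ τ) (a : TrAlg H) :
    a - algebraMap k (TrAlg H) (resFun H h2 a) ∈ nilradical (TrAlg H) :=
  (exists_scal H h2 a).choose_spec

theorem resFun_eq (H : Central r χ) (h2 : NilAt r χ τ) [Nontrivial V] {a : TrAlg H} {c : k}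
    (hc : a - algebraMap k (TrAlg H) c ∈ nilradical (TrAlg H)) : resFun H h2 a = c :=
  scal_unique H (resFun_spec H h2 a) hc

/-- **the residue map** `TrAlg H → k`. -/
noncomputable def res (H : Central r χ) (h2 : NilAt r χ τ) [Nontrivial V] : TrAlg H →ₐ[k] k where
  toFun := resFun H h2
  map_one' := resFun_eq H h2 (by rw [map_one, sub_self]; exact Ideal.zero_mem _)
  map_zero' := resFun_eq H h2 (by rw [map_zero, sub_self]; exact Ideal.zero_mem _)
  map_mul' a b := resFun_eq H h2 (by
    have e : a * b - algebraMap k (TrAlg H) (resFun H h2 a * resFun H h2 b)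
        = (a - algebraMap k (TrAlg H) (resFun H h2 a)) * b
          + algebraMap k (TrAlg H) (resFun H h2 a)
            * (b - algebraMap k (TrAlg H) (resFun H h2 b)) := by
      rw [map_mul]; ring
    rw [e]
    exact Ideal.add_mem _ (Ideal.mul_mem_right _ _ (resFun_spec H h2 a))
      (Ideal.mul_mem_left _ _ (resFun_spec H h2 b)))
  map_add' a b := resFun_eq H h2 (by
    have e : a + b - algebraMap k (TrAlg H) (resFun H h2 a + resFun H h2 b)
        = (a - algebraMap k (TrAlg H) (resFun H h2 a))
          + (b - algebraMap k (TrAlg H) (resFun H h2 b)) := by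
      rw [map_add]; ring
    rw [e]
    exact Ideal.add_mem _ (resFun_spec H h2 a) (resFun_spec H h2 b))
  commutes' c := resFun_eq H h2 (by
    rw [Algebra.algebraMap_self_apply, sub_self]; exact Ideal.zero_mem _)

section

variable (H : Central r χ) (h2 : NilAt r χ τ) [Nontrivial V]

theorem sub_res_mem (a : TrAlg H) :
    a - algebraMap k (TrAlg H) (res H h2 a) ∈ nilradical (TrAlg H) := resFun_spec H h2 a

theorem isNilpotent_sub_res (a : TrAlg H) :
    IsNilpotent (a - algebraMap k (TrAlg H) (res H h2 a)) := mem_nilradical.1 (sub_res_mem H h2 a)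

@[simp] theorem res_tA (g : G) : res H h2 (tA H g) = τ g :=
  resFun_eq H h2 (tA_sub_mem_nilradical H h2 g)

theorem res_eq_zero_iff (a : TrAlg H) : res H h2 a = 0 ↔ IsNilpotent a := by
  constructor
  · intro h
    have := isNilpotent_sub_res H h2 a
    rwa [h, map_zero, sub_zero] at this
  · intro h
    exact resFun_eq H h2 (by rw [map_zero, sub_zero]; exact mem_nilradical.2 h)

theorem isUnit_iff (a : TrAlg H) : IsUnit a ↔ res H h2 a ≠ 0 := by
  constructor
  · intro h
    exact (h.map (res H h2)).ne_zero
  · intro h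
    have hu : IsUnit (algebraMap k (TrAlg H) (res H h2 a)) := (IsUnit.mk0 _ h).map _
    have := (isNilpotent_sub_res H h2 a).isUnit_add_left_of_commute hu (Commute.all _ _)
    rwa [add_sub_cancel] at this

include h2 in
/-- the trace algebra is local. -/
theorem isLocalRing : IsLocalRing (TrAlg H) := by
  refine IsLocalRing.of_nonunits_add ?_
  intro a b ha hb
  rw [mem_nonunits_iff, isUnit_iff H h2, not_not] at ha hb ⊢
  rw [map_add, ha, hb, add_zero]

theorem mem_maximalIdeal_iff [IsLocalRing (TrAlg H)] (a : TrAlg H) :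
    a ∈ IsLocalRing.maximalIdeal (TrAlg H) ↔ res H h2 a = 0 := by
  rw [IsLocalRing.mem_maximalIdeal, mem_nonunits_iff, isUnit_iff H h2, not_not]

include h2 in
theorem maximalIdeal_eq [IsLocalRing (TrAlg H)] :
    IsLocalRing.maximalIdeal (TrAlg H) = nilradical (TrAlg H) := by
  ext a
  rw [mem_maximalIdeal_iff H h2, res_eq_zero_iff, mem_nilradical]

theorem maximalIdeal_eq_ker [IsLocalRing (TrAlg H)] :
    IsLocalRing.maximalIdeal (TrAlg H) = RingHom.ker (res H h2) := by
  ext a
  rw [mem_maximalIdeal_iff H h2, RingHom.mem_ker]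

theorem res_surjective : Function.Surjective (res H h2) := fun c =>
  ⟨algebraMap k _ c, AlgHom.commutes _ c⟩

include h2 in
/-- the maximal ideal is nilpotent. -/
theorem isNilpotent_maximalIdeal [FiniteDimensional k V] [IsLocalRing (TrAlg H)] :
    IsNilpotent (IsLocalRing.maximalIdeal (TrAlg H)) := by
  have : IsNoetherianRing (TrAlg H) := IsNoetherianRing.of_finite k (TrAlg H)
  rw [maximalIdeal_eq H h2]
  exact IsNoetherianRing.isNilpotent_nilradical _

include h2 in
/-- the maximal ideal is generated by the `t(g) - τ(g)`. -/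
theorem maximalIdeal_eq_span [IsLocalRing (TrAlg H)] :
    IsLocalRing.maximalIdeal (TrAlg H)
      = Ideal.span (Set.range fun g => tA H g - algebraMap k (TrAlg H) (τ g)) := by
  apply le_antisymm
  · set I := Ideal.span (Set.range fun g => tA H g - algebraMap k (TrAlg H) (τ g)) with hI
    -- `k + I` is a subalgebra containing the generators
    let S : Subalgebra k (TrAlg H) :=
      { carrier := {a | ∃ c : k, a - algebraMap k (TrAlg H) c ∈ I}
        mul_mem' := by
          rintro a b ⟨c, hc⟩ ⟨d, hd⟩
          refine ⟨c * d, ?_⟩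
          have e : a * b - algebraMap k (TrAlg H) (c * d)
              = (a - algebraMap k (TrAlg H) c) * b
                + algebraMap k (TrAlg H) c * (b - algebraMap k (TrAlg H) d) := by
            rw [map_mul]; ring
          rw [e]
          exact Ideal.add_mem _ (Ideal.mul_mem_right _ _ hc) (Ideal.mul_mem_left _ _ hd)
        add_mem' := by
          rintro a b ⟨c, hc⟩ ⟨d, hd⟩
          refine ⟨c + d, ?_⟩
          have e : a + b - algebraMap k (TrAlg H) (c + d)
              = (a - algebraMap k (TrAlg H) c) + (b - algebraMap k (TrAlg H) d) := by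
            rw [map_add]; ring
          rw [e]
          exact Ideal.add_mem _ hc hd
        algebraMap_mem' := fun c => ⟨c, by rw [sub_self]; exact Ideal.zero_mem _⟩ }
    have hS : Algebra.adjoin k (Set.range (tA H)) ≤ S := by
      apply Algebra.adjoin_le
      rintro _ ⟨g, rfl⟩
      exact ⟨τ g, Ideal.subset_span ⟨g, rfl⟩⟩
    rw [adjoin_tA] at hS
    have hIle : I ≤ IsLocalRing.maximalIdeal (TrAlg H) := by
      rw [hI, Ideal.span_le]
      rintro _ ⟨g, rfl⟩
      show _ ∈ IsLocalRing.maximalIdeal (TrAlg H)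
      rw [mem_maximalIdeal_iff H h2, map_sub, res_tA, AlgHom.commutes]
      exact sub_self _
    intro a ha
    obtain ⟨c, hc⟩ := hS (Algebra.mem_top (x := a))
    have h1 := (mem_maximalIdeal_iff H h2 _).1 (hIle hc)
    rw [map_sub, (mem_maximalIdeal_iff H h2 a).1 ha, AlgHom.commutes, zero_sub, neg_eq_zero] at h1
    have h3 : c = 0 := h1
    rwa [h3, map_zero, sub_zero] at hc
  · rw [Ideal.span_le]
    rintro _ ⟨g, rfl⟩
    show _ ∈ IsLocalRing.maximalIdeal (TrAlg H)
    rw [mem_maximalIdeal_iff H h2, map_sub, res_tA, AlgHom.commutes]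
    exact sub_self _

end

end Fermat.Agent.S43.GMA
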