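import Fermat.Agent.MR.Glue.Frob
import Fermat.Agent.Lib.FrobDensity.GALInterface
import Fermat.Agent.GAL.S31.RootsOfUnity

/-!
# S43 / GMA / CH : Cayley-Hamilton on `V_m(F(n)) = KV Kbar (FN n) m` with traces in the Hecke ring

Concrete input of the block GMA (Eichler-Shimura + Frobenius density), any level `n`, any exponent `m ≠ 0`.

* `luc d b : ℤ[X]` : the Lucas polynomials (`luc d 0 = 2`, `luc d 1 = X`, `luc d (b+2) = X luc d (b+1) - d luc d b`):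
  if `T² - a T + d = 0` then `(T^b)² - luc d b (a) T^b + d^b = 0`  (`quad_pow`, `a` commuting with `T`);
* `hk n m S` : the subring of `End (V_m(F(n)))` generated by the `T_ℓ`, `ℓ` prime, `ℓ ∤ n m`, `ℓ ∉ S`;
  `hk_comm` (commutative), `hk_gal` (commutes with `G_ℚ`);
* `frobData` : every `g : G_ℚ` acts on `V_m(F(n))`, on `μ_m` and on any given finite extension as `σ ^ b`, `σ` a Frobenius
  element at a prime `ℓ ∤ n m`, `ℓ ∉ B`;
* `ch` : for every `g` there are `t ∈ hk n m S` and `d : ℕ` with `g μ = μ ^ d` on `μ_m` and `g² - t g + d = 0` on `V_m(F(n))`;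
* `ch_common` : the same `(ℓ, b)` for `V_m(F(n))` and for a module `X` with `FrobMod p a B X` (e.g. `E[p]`):
  `t = luc ℓ b (T_ℓ)` on `V`, `luc ℓ b (a_ℓ)` on `X`;
* `trace_sub_pow_apply` : `(T_ℓ - a_ℓ)^N x = 0 ⟹ (luc ℓ b (T_ℓ) - luc ℓ b (a_ℓ))^N x = 0`
  (so `t - tr ρ̄(g)` is nilpotent on the generalised eigenspace).
-/

set_option autoImplicit false
set_option linter.unusedSectionVars false
set_option linter.style.haveILetI false

noncomputable section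

namespace Fermat.Agent.S43.CH

open AlgebraicCurve ModularCurve Fermat.Agent.S24 Fermat.Agent.GAL Fermat.Agent.MR.Glue
open Fermat.Agent.GAL.Tors Polynomial

/-! ### Lucas polynomials -/

/-- The Lucas polynomials `V_b(X, d)`. -/
def luc (d : ℤ) : ℕ → ℤ[X]
  | 0 => 2
  | 1 => X
  | (b + 2) => X * luc d (b + 1) - C d * luc d b

theorem luc_zero (d : ℤ) : luc d 0 = 2 := rfl
theorem luc_one (d : ℤ) : luc d 1 = X := rfl
theorem luc_succ_succ (d : ℤ) (b : ℕ) : luc d (b + 2) = X * luc d (b + 1) - C d * luc d b := rfl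

section ring

variable {R : Type*} [Ring R]

/-- A quadratic relation passes to the powers. -/
theorem quad_pow (T a : R) (d : ℤ) (hc : Commute T a) (h : T * T - a * T + (d : R) = 0) (b : ℕ) :
    T ^ b * T ^ b - aeval a (luc d b) * T ^ b + (d : R) ^ b = 0 := by
  set T' : R := a - T with hT'
  have hcomm : Commute T T' := hc.sub_right (Commute.refl T)
  have hprod : T * T' = (d : R) := by
    rw [hT', mul_sub, hc.eq]
    have : (d : R) = a * T - T * T := by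
      rw [← sub_eq_zero, ← h]; abel
    rw [this]
  have hs : T + T' = a := by rw [hT']; abel
  have hsum : ∀ n : ℕ, T ^ n + T' ^ n = aeval a (luc d n) ∧
      T ^ (n + 1) + T' ^ (n + 1) = aeval a (luc d (n + 1)) := by
    intro n
    induction n with
    | zero =>
      refine ⟨?_, ?_⟩
      · rw [luc_zero, pow_zero, pow_zero, map_ofNat, one_add_one_eq_two]
      · rw [zero_add, luc_one, aeval_X, pow_one, pow_one, hs]
    | succ n ih =>
      obtain ⟨hb, hc'⟩ := ih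
      refine ⟨hc', ?_⟩
      have key : T ^ (n + 1 + 1) + T' ^ (n + 1 + 1) =
          (T + T') * (T ^ (n + 1) + T' ^ (n + 1)) - (T * T') * (T ^ n + T' ^ n) := by
        have h1 : T' * T ^ (n + 1) = T * T' * T ^ n := by
          rw [pow_succ', ← mul_assoc, hcomm.eq]
        have h2 : T * T' ^ (n + 1) = T * T' * T' ^ n := by
          rw [pow_succ', ← mul_assoc]
        rw [add_mul, mul_add, mul_add, mul_add, h1, h2, pow_succ' T (n + 1), pow_succ' T' (n + 1)]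
        abel
      rw [key, hs, hprod, hb, hc', luc_succ_succ, map_sub, map_mul, map_mul, aeval_X, aeval_C]
      rfl
  have hb := (hsum b).1
  have h1 : T' ^ b * T ^ b = (d : R) ^ b := by
    rw [← hcomm.symm.mul_pow, ← hcomm.eq, hprod]
  have h2 : T' ^ b = aeval a (luc d b) - T ^ b := by rw [← hb]; abel
  rw [h2, sub_mul] at h1
  rw [← h1]
  abel

/-- `P(a) - P(c)` is divisible by `a - c`. -/
theorem aeval_sub_eval (a : R) (c : ℤ) (P : ℤ[X]) :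
    ∃ Q : ℤ[X], aeval a P - ((P.eval c : ℤ) : R) = aeval a Q * (a - (c : R)) := by
  obtain ⟨Q, hQ⟩ : (X - C c) ∣ P - C (P.eval c) := by
    rw [dvd_iff_isRoot, IsRoot.def, eval_sub, eval_C, sub_self]
  refine ⟨Q, ?_⟩
  have := congrArg (aeval a) hQ
  rw [map_sub, map_mul, map_sub, aeval_X, aeval_C, aeval_C] at this
  have hcm : Commute (a - (algebraMap ℤ R) c) (aeval a Q) := by
    have h0 : Commute (aeval a (X : ℤ[X])) (aeval a Q) := (Commute.all (X : ℤ[X]) Q).map (aeval a)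
    rw [aeval_X] at h0
    exact h0.sub_left (Int.cast_commute c _)
  rw [hcm.eq] at this
  exact this

/-- `(P(a) - P(c))^N` is a left multiple of `(a - c)^N`. -/
theorem aeval_sub_eval_pow (a : R) (c : ℤ) (P : ℤ[X]) (N : ℕ) :
    ∃ Q : ℤ[X], (aeval a P - ((P.eval c : ℤ) : R)) ^ N = aeval a Q * (a - (c : R)) ^ N := by
  obtain ⟨Q, hQ⟩ := aeval_sub_eval a c P
  refine ⟨Q ^ N, ?_⟩
  have h0 : Commute (aeval a (X : ℤ[X])) (aeval a Q) := (Commute.all (X : ℤ[X]) Q).map (aeval a)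
  rw [aeval_X] at h0
  have hcm : Commute (aeval a Q) (a - (c : R)) := (h0.sub_left (Int.cast_commute c _)).symm
  rw [hQ, hcm.mul_pow, map_pow]

theorem aeval_intCast (c : ℤ) (P : ℤ[X]) : aeval (c : R) P = ((P.eval c : ℤ) : R) := by
  have := Polynomial.aeval_algebraMap_apply_eq_algebraMap_eval (A := R) c P
  simpa using this

end ring

/-! ### The Hecke ring -/

section conc

variable (n m : ℕ) [NeZero n] [NeZero m]

/-- `T_ℓ` as an element of the endomorphism ring (total in `ℓ`). -/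
def tE (ℓ : ℕ) : AddMonoid.End (KV Kbar (FN n) m) :=
  if h : ℓ = 0 then 0 else haveI : NeZero ℓ := ⟨h⟩; heckeT Kbar n ℓ m

theorem tE_eq (ℓ : ℕ) [hℓ : NeZero ℓ] : tE n m ℓ = heckeT Kbar n ℓ m := by
  rw [tE, dif_neg hℓ.out]

theorem tE_apply (ℓ : ℕ) [NeZero ℓ] (x : KV Kbar (FN n) m) :
    tE n m ℓ x = heckeT Kbar n ℓ m x := by rw [tE_eq]; rfl

/-- the action of `g` as an element of the endomorphism ring. -/
def gE (g : GQ) : AddMonoid.End (KV Kbar (FN n) m) := DistribMulAction.toAddMonoidEnd GQ _ g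

theorem gE_apply (g : GQ) (x : KV Kbar (FN n) m) : gE n m g x = g • x := rfl

theorem gE_pow (g : GQ) (b : ℕ) : gE n m g ^ b = gE n m (g ^ b) := by
  rw [gE, gE, map_pow]

theorem tE_gE (ℓ : ℕ) (g : GQ) : Commute (gE n m g) (tE n m ℓ) := by
  by_cases h : ℓ = 0
  · rw [tE, dif_pos h]; exact Commute.zero_right _
  · haveI : NeZero ℓ := ⟨h⟩
    apply AddMonoidHom.ext
    intro x
    show g • tE n m ℓ x = tE n m ℓ (g • x)
    rw [tE_apply, tE_apply, heckeT_galois_smul]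

theorem tE_comm {ℓ ℓ' : ℕ} (hℓ : ℓ.Prime) (hℓ' : ℓ'.Prime) (h : ¬ ℓ ∣ n) (h' : ¬ ℓ' ∣ n) :
    tE n m ℓ * tE n m ℓ' = tE n m ℓ' * tE n m ℓ := by
  obtain ⟨D⟩ := nonempty_torsDatum' n
  haveI : NeZero ℓ := ⟨hℓ.ne_zero⟩
  haveI : NeZero ℓ' := ⟨hℓ'.ne_zero⟩
  apply AddMonoidHom.ext
  intro x
  show tE n m ℓ (tE n m ℓ' x) = tE n m ℓ' (tE n m ℓ x)
  simp only [tE_apply]
  obtain ⟨v, rfl⟩ := (D.e m).surjective x
  rw [← D.e_T m ℓ' hℓ' h', ← D.e_T m ℓ hℓ h, ← D.e_T m ℓ hℓ h, ← D.e_T m ℓ' hℓ' h',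
    Matrix.mulVec_mulVec, Matrix.mulVec_mulVec, ← Matrix.map_mul, ← Matrix.map_mul, D.T_comm]

/-- the generators of the Hecke ring. -/
def gens (S : Finset ℕ) : Set (AddMonoid.End (KV Kbar (FN n) m)) :=
  {T | ∃ ℓ : ℕ, ℓ.Prime ∧ ¬ ℓ ∣ n * m ∧ ℓ ∉ S ∧ T = tE n m ℓ}

/-- **The Hecke ring** : generated by the `T_ℓ`, `ℓ ∤ n m`, `ℓ ∉ S`. -/
def hk (S : Finset ℕ) : Subring (AddMonoid.End (KV Kbar (FN n) m)) := Subring.closure (gens n m S)

variable {n m}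

theorem tE_mem_hk {S : Finset ℕ} {ℓ : ℕ} (hℓ : ℓ.Prime) (h : ¬ ℓ ∣ n * m) (hS : ℓ ∉ S) :
    tE n m ℓ ∈ hk n m S := Subring.subset_closure ⟨ℓ, hℓ, h, hS, rfl⟩

theorem aeval_tE_mem_hk {S : Finset ℕ} {ℓ : ℕ} (hℓ : ℓ.Prime) (h : ¬ ℓ ∣ n * m) (hS : ℓ ∉ S)
    (P : ℤ[X]) : aeval (tE n m ℓ) P ∈ hk n m S := by
  induction P using Polynomial.induction_on' with
  | add p q hp hq => rw [map_add]; exact add_mem hp hq
  | monomial k c =>
    rw [aeval_monomial]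
    exact mul_mem (by rw [eq_intCast]; exact intCast_mem _ c) (pow_mem (tE_mem_hk hℓ h hS) k)

theorem hk_mono {S S' : Finset ℕ} (h : S ⊆ S') : hk n m S' ≤ hk n m S := by
  apply Subring.closure_mono
  rintro _ ⟨ℓ, h1, h2, h3, rfl⟩
  exact ⟨ℓ, h1, h2, fun h4 => h3 (h h4), rfl⟩

/-- the Hecke ring is commutative. -/
theorem hk_comm (S : Finset ℕ) {a b : AddMonoid.End (KV Kbar (FN n) m)} (ha : a ∈ hk n m S)
    (hb : b ∈ hk n m S) : a * b = b * a := by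
  have hc : ∀ x ∈ gens n m S, ∀ y ∈ gens n m S, x * y = y * x := by
    rintro _ ⟨ℓ, h1, h2, -, rfl⟩ _ ⟨ℓ', h1', h2', -, rfl⟩
    exact tE_comm n m h1 h1' (fun h => h2 (h.mul_right _)) (fun h => h2' (h.mul_right _))
  have := Subring.isMulCommutative_closure hc
  exact congrArg Subtype.val (mul_comm' (⟨a, ha⟩ : Subring.closure (gens n m S)) ⟨b, hb⟩)

/-- the Hecke ring commutes with `G_ℚ`. -/
theorem hk_gE (S : Finset ℕ) {a : AddMonoid.End (KV Kbar (FN n) m)} (ha : a ∈ hk n m S) (g : GQ) :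
    Commute (gE n m g) a := by
  induction ha using Subring.closure_induction with
  | mem x hx =>
    obtain ⟨ℓ, -, -, -, rfl⟩ := hx
    exact tE_gE n m ℓ g
  | zero => exact Commute.zero_right _
  | one => exact Commute.one_right _
  | add x y _ _ hx hy => exact hx.add_right hy
  | neg x _ hx => exact hx.neg_right
  | mul x y _ _ hx hy => exact hx.mul_right hy

theorem hk_gal (S : Finset ℕ) {a : AddMonoid.End (KV Kbar (FN n) m)} (ha : a ∈ hk n m S) (g : GQ)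
    (x : KV Kbar (FN n) m) : a (g • x) = g • a x :=
  (DFunLike.congr_fun (hk_gE S ha g).eq x).symm

/-! ### Frobenius density -/

variable (n m)

/-- a finite extension containing `μ_m`. -/
theorem exists_mu_field : ∃ F : IntermediateField ℚ Kbar, FiniteDimensional ℚ F ∧
    ∀ μ : Kbar, μ ^ m = 1 → μ ∈ F := by
  refine ⟨IntermediateField.adjoin ℚ ((nthRootsFinset m (1 : Kbar) : Finset Kbar) : Set Kbar), ?_, ?_⟩
  · exact IntermediateField.finiteDimensional_adjoin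
      fun x _ => ((AlgebraicClosure.isAlgebraic ℚ).isAlgebraic x).isIntegral
  · intro μ hμ
    apply IntermediateField.subset_adjoin
    rw [Finset.mem_coe, mem_nthRootsFinset (Nat.pos_of_ne_zero (NeZero.ne m))]
    exact hμ

/-- **Frobenius density** for `V_m(F(n))`, `μ_m` and an auxiliary finite extension `F'`. -/
theorem frobData (F' : IntermediateField ℚ Kbar) (hF' : FiniteDimensional ℚ F') (g : GQ)
    (B : Finset ℕ) :
    ∃ (ℓ : ℕ) (A : ValuationSubring Kbar) (σ : GQ) (b : ℕ), ℓ.Prime ∧ ℓ ∉ B ∧ ¬ ℓ ∣ n * m ∧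
      A.LiesOverPrime ℓ ∧ A.IsFrobeniusAt σ ℓ ∧ (∀ x ∈ F', (σ ^ b) x = g x) ∧
      (∀ y : KV Kbar (FN n) m, (σ ^ b) • y = g • y) ∧
      ∀ μ : Kbar, μ ^ m = 1 → g μ = μ ^ (ℓ ^ b) := by
  obtain ⟨F₁, hF₁, h₁⟩ := kv_cont n m
  obtain ⟨F₂, hF₂, h₂⟩ := exists_mu_field m
  obtain ⟨ℓ, A, σ, b, hℓ, hℓB, hA, hσ, hag⟩ :=
    Fermat.Agent.Lib.FrobDensity.gal_frobeniusDensity (F₁ ⊔ F₂ ⊔ F') inferInstance g
      (B ∪ (n * m).primeFactors)
  have hnm : n * m ≠ 0 := mul_ne_zero (NeZero.ne n) (NeZero.ne m)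
  have hℓnm : ¬ ℓ ∣ n * m := fun h =>
    hℓB (Finset.mem_union_right _ (Nat.mem_primeFactors.mpr ⟨hℓ, h, hnm⟩))
  refine ⟨ℓ, A, σ, b, hℓ, fun h => hℓB (Finset.mem_union_left _ h), hℓnm, hA, hσ,
    fun x hx => hag x (le_sup_right (a := F₁ ⊔ F₂) hx), ?_, ?_⟩
  · intro y
    have h1 : (g⁻¹ * σ ^ b) • y = y := by
      apply h₁
      intro x hx
      rw [AlgEquiv.mul_apply, hag x ((le_sup_left.trans le_sup_left : F₁ ≤ F₁ ⊔ F₂ ⊔ F') hx),
        ← AlgEquiv.mul_apply, inv_mul_cancel, AlgEquiv.one_apply]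
    rw [mul_smul] at h1
    calc (σ ^ b) • y = g • g⁻¹ • (σ ^ b) • y := by rw [smul_smul, mul_inv_cancel, one_smul]
      _ = g • y := by rw [h1]
  · intro μ hμ
    rw [← hag μ ((le_sup_right.trans le_sup_left : F₂ ≤ F₁ ⊔ F₂ ⊔ F') (h₂ μ hμ))]
    have hm : ¬ ℓ ∣ m := fun h => hℓnm (h.mul_left n)
    have key : ∀ c : ℕ, ∀ ν : Kbar, ν ^ m = 1 → (σ ^ c) ν = ν ^ (ℓ ^ c) := by
      intro c
      induction c with
      | zero => intro ν _; simp
      | succ c ih =>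
        intro ν hν
        rw [pow_succ, AlgEquiv.mul_apply, S31.frobenius_apply_root A hℓ hA hσ hm hν,
          ih _ (by rw [← pow_mul, mul_comm, pow_mul, hν, one_pow]), ← pow_mul, pow_succ, mul_comm]
    exact key b μ hμ

/-- Eichler-Shimura in the endomorphism ring. -/
theorem es_end {ℓ : ℕ} (hℓ : ℓ.Prime) (hℓnm : ¬ ℓ ∣ n * m) (A : ValuationSubring Kbar)
    (hA : A.LiesOverPrime ℓ) (σ : GQ) (hσ : A.IsFrobeniusAt σ ℓ) :
    gE n m σ * gE n m σ - tE n m ℓ * gE n m σ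
      + (((ℓ : ℕ) : ℤ) : AddMonoid.End (KV Kbar (FN n) m)) = 0 := by
  haveI : NeZero ℓ := ⟨hℓ.ne_zero⟩
  apply AddMonoidHom.ext
  intro x
  have h := kv_frob n m ℓ hℓ (fun h => hℓnm (h.mul_right _)) (fun h => hℓnm (h.mul_left _)) A hA σ hσ x
  rw [← tE_apply] at h
  show σ • σ • x - tE n m ℓ (σ • x) + (((ℓ : ℕ) : ℤ) : AddMonoid.End (KV Kbar (FN n) m)) x = 0
  rw [Int.cast_natCast, AddMonoid.End.natCast_apply]
  exact h

/-- **Cayley-Hamilton, explicit form.** -/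
theorem ch_explicit {ℓ : ℕ} (hℓ : ℓ.Prime) (hℓnm : ¬ ℓ ∣ n * m) (A : ValuationSubring Kbar)
    (hA : A.LiesOverPrime ℓ) (σ : GQ) (hσ : A.IsFrobeniusAt σ ℓ) (b : ℕ) (g : GQ)
    (hg : ∀ y : KV Kbar (FN n) m, (σ ^ b) • y = g • y) (x : KV Kbar (FN n) m) :
    g • g • x - aeval (tE n m ℓ) (luc ℓ b) (g • x) + (ℓ ^ b) • x = 0 := by
  have h := quad_pow (gE n m σ) (tE n m ℓ) (ℓ : ℤ) (tE_gE n m ℓ σ) (es_end n m hℓ hℓnm A hA σ hσ) b
  have h2 := DFunLike.congr_fun h x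
  rw [gE_pow] at h2
  have e : (((ℓ : ℕ) : ℤ) : AddMonoid.End (KV Kbar (FN n) m)) ^ b
      = ((ℓ ^ b : ℕ) : AddMonoid.End (KV Kbar (FN n) m)) := by push_cast; rfl
  rw [e] at h2
  have h3 : (σ ^ b) • (σ ^ b) • x - aeval (tE n m ℓ) (luc ℓ b) ((σ ^ b) • x)
      + ((ℓ ^ b : ℕ) : AddMonoid.End (KV Kbar (FN n) m)) x = 0 := h2
  rw [AddMonoid.End.natCast_apply, hg, hg] at h3
  exact h3

/-- **Cayley-Hamilton on `V_m(F(n))` with trace in the Hecke ring.** -/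
theorem ch (S : Finset ℕ) (g : GQ) :
    ∃ t ∈ hk n m S, ∃ d : ℕ, (∀ μ : Kbar, μ ^ m = 1 → g μ = μ ^ d) ∧
      ∀ x : KV Kbar (FN n) m, g • g • x - t (g • x) + d • x = 0 := by
  obtain ⟨ℓ, A, σ, b, hℓ, hℓS, hℓnm, hA, hσ, -, hg, hμ⟩ := frobData n m ⊥ inferInstance g S
  exact ⟨_, aeval_tE_mem_hk hℓ hℓnm hℓS (luc ℓ b), ℓ ^ b, hμ,
    ch_explicit n m hℓ hℓnm A hA σ hσ b g hg⟩

/-- **Cayley-Hamilton, simultaneously on `V_m(F(n))` and on a module `X` with `FrobMod p a B X`** (e.g. `E[p]`). -/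
theorem ch_common {p : ℕ} {a : ℕ → ℤ} {B : Finset ℕ} {X : Type*} [AddCommGroup X]
    [DistribMulAction GQ X] (hX : FrobMod p a B X) (S : Finset ℕ) (g : GQ) :
    ∃ ℓ b : ℕ, ℓ.Prime ∧ ℓ ∉ S ∧ ℓ ∉ B ∧ ¬ ℓ ∣ n * m ∧
      (∀ μ : Kbar, μ ^ m = 1 → g μ = μ ^ (ℓ ^ b)) ∧
      (∀ x : KV Kbar (FN n) m,
        g • g • x - aeval (tE n m ℓ) (luc ℓ b) (g • x) + (ℓ ^ b) • x = 0) ∧
      ∀ y : X, g • g • y - ((luc ℓ b).eval (a ℓ)) • g • y + (ℓ ^ b) • y = 0 := by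
  obtain ⟨F', hF', h'⟩ := hX.cont
  obtain ⟨ℓ, A, σ, b, hℓ, hℓS, hℓnm, hA, hσ, hag, hg, hμ⟩ := frobData n m F' hF' g (S ∪ B)
  have hℓB : ℓ ∉ B := fun h => hℓS (Finset.mem_union_right _ h)
  refine ⟨ℓ, b, hℓ, fun h => hℓS (Finset.mem_union_left _ h), hℓB, hℓnm, hμ,
    ch_explicit n m hℓ hℓnm A hA σ hσ b g hg, ?_⟩
  have hgX : ∀ y : X, (σ ^ b) • y = g • y := by
    intro y
    have h1 : (g⁻¹ * σ ^ b) • y = y := by
      apply h'
      intro x hx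
      rw [AlgEquiv.mul_apply, hag x hx, ← AlgEquiv.mul_apply, inv_mul_cancel, AlgEquiv.one_apply]
    rw [mul_smul] at h1
    calc (σ ^ b) • y = g • g⁻¹ • (σ ^ b) • y := by rw [smul_smul, mul_inv_cancel, one_smul]
      _ = g • y := by rw [h1]
  intro y
  set T : AddMonoid.End X := DistribMulAction.toAddMonoidEnd GQ X σ with hT
  have hq : T * T - ((a ℓ : ℤ) : AddMonoid.End X) * T + (((ℓ : ℕ) : ℤ) : AddMonoid.End X) = 0 := by
    apply AddMonoidHom.ext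
    intro z
    show σ • σ • z - ((a ℓ : ℤ) : AddMonoid.End X) (σ • z) + (((ℓ : ℕ) : ℤ) : AddMonoid.End X) z = 0
    rw [AddMonoid.End.intCast_apply, AddMonoid.End.intCast_apply]
    exact hX.frob ℓ hℓ hℓB A hA σ hσ z
  have h := quad_pow T ((a ℓ : ℤ) : AddMonoid.End X) (ℓ : ℤ) (Int.cast_commute _ _).symm hq b
  rw [aeval_intCast, hT, ← map_pow] at h
  have e : (((ℓ : ℕ) : ℤ) : AddMonoid.End X) ^ b = ((ℓ ^ b : ℕ) : AddMonoid.End X) := by
    push_cast; rfl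
  rw [e] at h
  have h3 : (σ ^ b) • (σ ^ b) • y - (((luc ℓ b).eval (a ℓ) : ℤ) : AddMonoid.End X) ((σ ^ b) • y)
      + ((ℓ ^ b : ℕ) : AddMonoid.End X) y = 0 := DFunLike.congr_fun h y
  rw [AddMonoid.End.natCast_apply, AddMonoid.End.intCast_apply, hgX, hgX] at h3
  exact h3

/-- on a generalised eigenvector of `T_ℓ` the trace `luc ℓ b (T_ℓ)` is `luc ℓ b (a)` up to a nilpotent. -/
theorem trace_sub_pow_apply (ℓ : ℕ) (c : ℤ) (P : ℤ[X]) (N : ℕ) (x : KV Kbar (FN n) m)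
    (hx : ((tE n m ℓ - (c : AddMonoid.End (KV Kbar (FN n) m))) ^ N) x = 0) :
    ((aeval (tE n m ℓ) P - ((P.eval c : ℤ) : AddMonoid.End (KV Kbar (FN n) m))) ^ N) x = 0 := by
  obtain ⟨Q, hQ⟩ := aeval_sub_eval_pow (tE n m ℓ) c P N
  rw [hQ]
  show aeval (tE n m ℓ) Q (((tE n m ℓ - (c : AddMonoid.End (KV Kbar (FN n) m))) ^ N) x) = 0
  rw [hx, map_zero]

end conc

end Fermat.Agent.S43.CH
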