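import Fermat.Agent.S43.Exact.Mat

/-!
# S43 / GMA, abstract part: `ρ_A : G → GL₂(A)` and `V ≃ L²` from Cayley–Hamilton and a complex conjugation

`A` a commutative ring acting faithfully on `V`, `G` a group acting `A`-linearly on `V`, with functions
`t : G → A`, `d : G →* A` such that `g² - t(g) g + d(g) = 0` on `V` for every `g` (Eichler–Shimura +
Chebotarev).  `c ∈ G` with `c² = 1`, `t(c) = 0`, `2` invertible.  Then with `e₁ = (1+c)/2`, `e₂ = (1-c)/2`:
`e₁ g e₁ = a(g) e₁`, `e₂ g e₂ = δ(g) e₂`, `e₁ x e₂ y e₁ = m(x,y) e₁`, `e₂ x e₁ y e₂ = m'(x,y) e₂`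
with explicit elements of `A`.  If `m(g₀,h₀)` and `m'(h₀,g₀)` are units, `V ≃ L²`, `L = e₁ V`, and `G` acts
through explicit matrices.  Pure Mathlib (+ `Exact.matAct`).
-/

set_option autoImplicit false

namespace Fermat.Agent.S43.GMA

open Fermat.Agent.S43.Exact

/-- A Cayley–Hamilton datum with a complex conjugation. -/
structure CHD (A V G : Type*) [CommRing A] [AddCommGroup V] [Module A V] [Group G] where
  r : G →* Module.End A V
  t : G → A
  d : G →* A
  ch : ∀ g v, r g (r g v) - t g • r g v + d g • v = 0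
  faithful : ∀ a : A, (∀ v : V, a • v = 0) → a = 0
  half : A
  two_half : 2 * half = 1
  c : G
  cc : c * c = 1
  tc : t c = 0

variable {A V G : Type*} [CommRing A] [AddCommGroup V] [Module A V] [Group G]

namespace CHD

variable (D : CHD A V G)

theorem r_mul (g h : G) (v : V) : D.r (g * h) v = D.r g (D.r h v) := by
  rw [map_mul]; rfl

theorem r_one (v : V) : D.r 1 v = v := by
  rw [map_one]; rfl

theorem r_inv_r (g : G) (v : V) : D.r g (D.r g⁻¹ v) = v := by
  rw [← r_mul, mul_inv_cancel, r_one]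

theorem r_cc (v : V) : D.r D.c (D.r D.c v) = v := by
  rw [← r_mul, D.cc, r_one]

theorem inv_formula (g : G) (v : V) : D.t g • v - D.r g v = D.d g • D.r g⁻¹ v := by
  have h := D.ch g (D.r g⁻¹ v)
  rw [r_inv_r] at h
  linear_combination (norm := module) (-1 : A) • h

/-- the polarised Cayley–Hamilton identity. -/
theorem pol (g h : G) (v : V) :
    D.r g (D.r h v) + D.r h (D.r g v) =
      D.t g • D.r h v + D.t h • D.r g v + (D.t (g * h) - D.t g * D.t h) • v := by
  have h1 := D.inv_formula (g * h) v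
  rw [mul_inv_rev, r_mul, r_mul, map_mul] at h1
  have h2 := D.inv_formula g v
  have h3 := D.inv_formula h (D.r g⁻¹ v)
  have h4 : D.r h (D.d g • D.r g⁻¹ v) = D.r h (D.t g • v - D.r g v) := by rw [h2]
  rw [map_smul, map_sub, map_smul] at h4
  linear_combination (norm := module) (-1 : A) • h1 + D.d g • h3 + D.t h • h2 + h4

theorem t_one : D.t 1 = 2 := by
  have : D.t 1 - 2 = 0 := by
    apply D.faithful
    intro v
    have h := D.ch 1 v
    rw [r_one, r_one, map_one] at h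
    linear_combination (norm := module) (-1 : A) • h
  linear_combination this

/-- `a(g) = (t(g) + t(cg))/2`. -/
def a (g : G) : A := D.half * (D.t g + D.t (D.c * g))

/-- `δ(g) = (t(g) - t(cg))/2`. -/
def dl (g : G) : A := D.half * (D.t g - D.t (D.c * g))

/-- `m(x,y) = a(xy) - a(x)a(y)`. -/
def m (x y : G) : A := D.a (x * y) - D.a x * D.a y

/-- `m'(x,y) = δ(xy) - δ(x)δ(y)`. -/
def m' (x y : G) : A := D.dl (x * y) - D.dl x * D.dl y

theorem a_add_dl (g : G) : D.a g + D.dl g = D.t g := by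
  unfold a dl
  linear_combination D.t g * D.two_half

/-- `e₁ = (1+c)/2`. -/
def e1 : V →ₗ[A] V := D.half • (LinearMap.id + D.r D.c)

/-- `e₂ = (1-c)/2`. -/
def e2 : V →ₗ[A] V := D.half • (LinearMap.id - D.r D.c)

theorem e1_apply (v : V) : D.e1 v = D.half • (v + D.r D.c v) := rfl

theorem e2_apply (v : V) : D.e2 v = D.half • (v - D.r D.c v) := rfl

theorem e1_add_e2 (v : V) : D.e1 v + D.e2 v = v := by
  rw [e1_apply, e2_apply]
  linear_combination (norm := module) D.two_half • v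

theorem c_e1 (v : V) : D.r D.c (D.e1 v) = D.e1 v := by
  rw [e1_apply, map_smul, map_add, r_cc, add_comm]

theorem c_e2 (v : V) : D.r D.c (D.e2 v) = - D.e2 v := by
  rw [e2_apply, map_smul, map_sub, r_cc, ← smul_neg, neg_sub]

theorem e1_c (v : V) : D.e1 (D.r D.c v) = D.e1 v := by
  rw [e1_apply, e1_apply, r_cc, add_comm]

theorem e2_c (v : V) : D.e2 (D.r D.c v) = - D.e2 v := by
  rw [e2_apply, e2_apply, r_cc, ← smul_neg, neg_sub]

theorem e1_e1 (v : V) : D.e1 (D.e1 v) = D.e1 v := by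
  rw [e1_apply (v := D.e1 v), c_e1]
  linear_combination (norm := module) D.two_half • D.e1 v

theorem e2_e2 (v : V) : D.e2 (D.e2 v) = D.e2 v := by
  rw [e2_apply (v := D.e2 v), c_e2]
  linear_combination (norm := module) D.two_half • D.e2 v

theorem e1_e2 (v : V) : D.e1 (D.e2 v) = 0 := by
  rw [e1_apply (v := D.e2 v), c_e2, add_neg_cancel, smul_zero]

theorem e2_e1 (v : V) : D.e2 (D.e1 v) = 0 := by
  rw [e2_apply (v := D.e1 v), c_e1, sub_self, smul_zero]

theorem K1 (g : G) (v : V) : D.e1 (D.r g (D.e1 v)) = D.a g • D.e1 v := by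
  have p1 := D.pol D.c g v
  have p2 := D.pol D.c g (D.r D.c v)
  rw [r_cc, D.tc] at p2
  rw [D.tc] at p1
  simp only [e1_apply, map_smul, map_add, a]
  linear_combination (norm := module) (D.half * D.half) • p1 + (D.half * D.half) • p2

theorem K2 (g : G) (v : V) : D.e2 (D.r g (D.e2 v)) = D.dl g • D.e2 v := by
  have p1 := D.pol D.c g v
  have p2 := D.pol D.c g (D.r D.c v)
  rw [r_cc, D.tc] at p2
  rw [D.tc] at p1
  simp only [e2_apply, map_smul, map_sub, dl]
  linear_combination (norm := module) (- (D.half * D.half)) • p1 + (D.half * D.half) • p2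

theorem K3 (x y : G) (v : V) :
    D.e1 (D.r x (D.e2 (D.r y (D.e1 v)))) = D.m x y • D.e1 v := by
  have h1 := D.K1 (x * y) v
  rw [r_mul] at h1
  have h2 := D.e1_add_e2 (D.r y (D.e1 v))
  have h3 : D.e1 (D.r x (D.e1 (D.r y (D.e1 v)))) = D.a x • D.a y • D.e1 v := by
    rw [D.K1 x, D.K1 y]
  have h4 : D.e1 (D.r x (D.e1 (D.r y (D.e1 v)) + D.e2 (D.r y (D.e1 v)))) =
      D.e1 (D.r x (D.r y (D.e1 v))) := by rw [h2]
  rw [map_add, map_add] at h4
  unfold m
  linear_combination (norm := module) h4 + h1 - h3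

theorem K4 (x y : G) (v : V) :
    D.e2 (D.r x (D.e1 (D.r y (D.e2 v)))) = D.m' x y • D.e2 v := by
  have h1 := D.K2 (x * y) v
  rw [r_mul] at h1
  have h2 := D.e1_add_e2 (D.r y (D.e2 v))
  have h3 : D.e2 (D.r x (D.e2 (D.r y (D.e2 v)))) = D.dl x • D.dl y • D.e2 v := by
    rw [D.K2 x, D.K2 y]
  have h4 : D.e2 (D.r x (D.e1 (D.r y (D.e2 v)) + D.e2 (D.r y (D.e2 v)))) =
      D.e2 (D.r x (D.r y (D.e2 v))) := by rw [h2]
  rw [map_add, map_add] at h4
  unfold m'
  linear_combination (norm := module) h4 + h1 - h3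

/-- `L = e₁ V`. -/
def L : Submodule A V := LinearMap.range D.e1

theorem e1_mem (v : V) : D.e1 v ∈ D.L := ⟨v, rfl⟩

theorem e1_of_mem {l : V} (hl : l ∈ D.L) : D.e1 l = l := by
  obtain ⟨v, rfl⟩ := hl
  exact D.e1_e1 v

theorem e2_of_mem {l : V} (hl : l ∈ D.L) : D.e2 l = 0 := by
  obtain ⟨v, rfl⟩ := hl
  exact D.e2_e1 v

/-- Pivots: `g₀, h₀` with `m(g₀,h₀)`, `m'(h₀,g₀)` units. -/
structure Piv where
  g0 : G
  h0 : G
  bi : A
  hbi : D.m g0 h0 * bi = 1
  bi' : A
  hbi' : D.m' h0 g0 * bi' = 1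

variable {D} (P : D.Piv)

/-- the matrix of `g`. -/
def Piv.mat (g : G) : Matrix (Fin 2) (Fin 2) A :=
  !![D.a g, P.bi' * D.m g P.h0; D.m P.g0 g, D.dl g]

/-- the map `V → L²`. -/
def Piv.psi : V →ₗ[A] (Fin 2 → D.L) :=
  LinearMap.pi ![D.e1.codRestrict D.L D.e1_mem,
    (D.e1 ∘ₗ D.r P.g0 ∘ₗ D.e2).codRestrict D.L (fun _ => D.e1_mem _)]

theorem Piv.psi_zero (v : V) : (P.psi v 0 : V) = D.e1 v := rfl

theorem Piv.psi_one (v : V) : (P.psi v 1 : V) = D.e1 (D.r P.g0 (D.e2 v)) := rfl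

theorem Piv.psi_injective : Function.Injective P.psi := by
  rw [injective_iff_map_eq_zero]
  intro v hv
  have h0 : D.e1 v = 0 := by rw [← P.psi_zero, hv]; rfl
  have h1 : D.e1 (D.r P.g0 (D.e2 v)) = 0 := by rw [← P.psi_one, hv]; rfl
  have h2 := D.K4 P.h0 P.g0 v
  rw [h1, map_zero, map_zero] at h2
  have h3 : D.e2 v = 0 := by
    have : D.e2 v = (D.m' P.h0 P.g0 * P.bi') • D.e2 v := by rw [P.hbi', one_smul]
    rw [this, mul_comm, mul_smul, ← h2, smul_zero]
  rw [← D.e1_add_e2 v, h0, h3, add_zero]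

theorem Piv.psi_surjective : Function.Surjective P.psi := by
  intro w
  refine ⟨(w 0 : V) + P.bi • D.e2 (D.r P.h0 (w 1 : V)), ?_⟩
  funext i
  apply Subtype.ext
  fin_cases i
  · show (P.psi _ 0 : V) = _
    rw [P.psi_zero, map_add, map_smul, D.e1_e2, smul_zero, add_zero, D.e1_of_mem (w 0).2]
    rfl
  · show (P.psi _ 1 : V) = _
    rw [P.psi_one, map_add, map_smul, D.e2_e2, D.e2_of_mem (w 0).2, zero_add, map_smul, map_smul]
    have h := D.K3 P.g0 P.h0 (w 1 : V)
    rw [D.e1_of_mem (w 1).2] at h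
    rw [h, smul_smul, mul_comm, P.hbi, one_smul]
    rfl

/-- `V ≃ L²`. -/
noncomputable def Piv.Psi : V ≃ₗ[A] (Fin 2 → D.L) :=
  LinearEquiv.ofBijective P.psi ⟨P.psi_injective, P.psi_surjective⟩

theorem Piv.Psi_apply (v : V) : P.Psi v = P.psi v := rfl

theorem Piv.e1_r_e2 (g : G) (v : V) :
    D.e1 (D.r g (D.e2 v)) = (P.bi' * D.m g P.h0) • D.e1 (D.r P.g0 (D.e2 v)) := by
  have h2 := D.K4 P.h0 P.g0 v
  have h3 := D.K3 g P.h0 (D.r P.g0 (D.e2 v))
  rw [h2, map_smul, map_smul] at h3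
  have : D.e1 (D.r g (D.e2 v)) = (D.m' P.h0 P.g0 * P.bi') • D.e1 (D.r g (D.e2 v)) := by
    rw [P.hbi', one_smul]
  rw [this, mul_comm, mul_smul, h3, smul_smul]

/-- equivariance. -/
theorem Piv.Psi_r (g : G) (v : V) : P.Psi (D.r g v) = matAct (P.mat g) (P.Psi v) := by
  funext i
  apply Subtype.ext
  rw [matAct_apply, P.Psi_apply, P.Psi_apply]
  have hv : D.r g v = D.r g (D.e1 v) + D.r g (D.e2 v) := by rw [← map_add, D.e1_add_e2]
  fin_cases i
  · show (P.psi _ 0 : V) = D.a g • (P.psi v 0 : V) + (P.bi' * D.m g P.h0) • (P.psi v 1 : V)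
    rw [P.psi_zero, P.psi_zero, P.psi_one, hv, map_add, D.K1, P.e1_r_e2]
  · show (P.psi _ 1 : V) = D.m P.g0 g • (P.psi v 0 : V) + D.dl g • (P.psi v 1 : V)
    rw [P.psi_one, P.psi_zero, P.psi_one, hv, map_add, map_add, map_add, D.K3, D.K2, map_smul,
      map_smul]

include P in
theorem Piv.faithfulL (a : A) (h : ∀ l : D.L, a • l = 0) : a = 0 := by
  apply D.faithful
  intro v
  apply (Piv.Psi P).injective
  rw [map_smul, map_zero]
  funext i
  exact h _

theorem Piv.mat_mul (g h : G) : P.mat (g * h) = P.mat g * P.mat h := by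
  apply eq_of_matAct (L := D.L) P.faithfulL
  intro w
  obtain ⟨v, rfl⟩ := P.Psi.surjective w
  rw [matAct_mul, ← P.Psi_r, ← P.Psi_r, ← P.Psi_r, D.r_mul]

theorem Piv.mat_one : P.mat 1 = 1 := by
  apply eq_of_matAct (L := D.L) P.faithfulL
  intro w
  obtain ⟨v, rfl⟩ := P.Psi.surjective w
  rw [matAct_one, ← P.Psi_r, D.r_one]

/-- `ρ_A` as a monoid hom to matrices. -/
def Piv.rhoM : G →* Matrix (Fin 2) (Fin 2) A where
  toFun := P.mat
  map_one' := P.mat_one
  map_mul' := P.mat_mul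

/-- `ρ_A : G →* GL₂(A)`. -/
def Piv.rho : G →* GL (Fin 2) A := P.rhoM.toHomUnits

theorem Piv.rho_coe (g : G) : ((P.rho g : GL (Fin 2) A) : Matrix (Fin 2) (Fin 2) A) = P.mat g := rfl

theorem Piv.trace_mat (g : G) : (P.mat g).trace = D.t g := by
  rw [Matrix.trace_fin_two]
  exact D.a_add_dl g

theorem Piv.det_mat (g : G) : (P.mat g).det = D.d g := by
  have hCH : P.mat g * P.mat g - (P.mat g).trace • P.mat g + (P.mat g).det • 1 = 0 := by
    ext i j
    fin_cases i <;> fin_cases j <;>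
      simp [Matrix.mul_apply, Fin.sum_univ_two, Matrix.det_fin_two, Matrix.trace_fin_two] <;> ring
  have : (P.mat g).det - D.d g = 0 := by
    apply D.faithful
    intro v
    apply P.Psi.injective
    have h1 := congrArg P.Psi (D.ch g v)
    rw [map_add, map_sub, map_smul, map_smul, P.Psi_r, P.Psi_r, map_zero] at h1
    have h2 : matAct (P.mat g * P.mat g - (P.mat g).trace • P.mat g + (P.mat g).det • 1) (P.Psi v)
        = 0 := by rw [hCH, matAct_zero]
    rw [matAct_add, matAct_sub, matAct_mul, matAct_smul, matAct_smul, matAct_one, P.trace_mat] at h2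
    rw [map_smul, map_zero]
    linear_combination (norm := module) h2 - h1
  linear_combination this

theorem Piv.mat_c : P.mat D.c = !![1, 0; 0, -1] := by
  apply eq_of_matAct (L := D.L) P.faithfulL
  intro w
  obtain ⟨v, rfl⟩ := P.Psi.surjective w
  rw [← P.Psi_r]
  funext i
  apply Subtype.ext
  rw [matAct_apply, P.Psi_apply, P.Psi_apply]
  fin_cases i
  · show (P.psi _ 0 : V) = (1 : A) • (P.psi v 0 : V) + (0 : A) • (P.psi v 1 : V)
    rw [P.psi_zero, P.psi_zero, D.e1_c, one_smul, zero_smul, add_zero]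
  · show (P.psi _ 1 : V) = (0 : A) • (P.psi v 0 : V) + (-1 : A) • (P.psi v 1 : V)
    rw [P.psi_one, P.psi_one, D.e2_c, map_neg, map_neg, zero_smul, zero_add, neg_smul, one_smul]

end CHD

end Fermat.Agent.S43.GMA
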